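/-
S32M BOARD v0, leaf L1 (FREE), Mathlib-only.

`𝒪` a commutative ring in which the prime `p` is a non-zero-divisor and `𝒪 ⧸ p` is finite.
Then `𝒪 ⧸ p ^ m` is free over `ℤ ⧸ p ^ m`, in dual-basis form: there are `b : Fin r → 𝒪` and
additive coordinate functions `χ j : 𝒪 →+ ZMod (p ^ m)` with
`c = ∑ j, ((χ j c).val : 𝒪) * b j + p ^ m * d` for every `c`.
-/
import Mathlib

namespace Fermat.Agent.FF2.S32L

open Finset

/-- A finite `𝔽_p`-vector space has a basis; stated with integer coefficients only. -/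
theorem exists_int_basis_of_zmod_module (p : ℕ) [Fact p.Prime] (k : Type*) [AddCommGroup k]
    [Module (ZMod p) k] [Finite k] :
    ∃ (r : ℕ) (e : Fin r → k),
      (∀ x : k, ∃ n : Fin r → ℕ, x = ∑ j, n j • e j) ∧
      (∀ n : Fin r → ℤ, ∑ j, n j • e j = 0 → ∀ j, (p : ℤ) ∣ n j) := by
  classical
  have : Module.Finite (ZMod p) k := Module.Finite.of_finite
  let e := Module.finBasis (ZMod p) k
  refine ⟨_, e, ?_, ?_⟩
  · intro x
    refine ⟨fun j => (e.repr x j).val, ?_⟩
    conv_lhs => rw [← e.sum_repr x]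
    refine Finset.sum_congr rfl fun j _ => ?_
    conv_lhs => rw [← ZMod.natCast_zmod_val (e.repr x j)]
    rw [Nat.cast_smul_eq_nsmul]
  · intro n h j
    have h1 : ∑ i, (n i : ZMod p) • e i = 0 := by
      rw [← h]
      refine Finset.sum_congr rfl fun i _ => ?_
      rw [Int.cast_smul_eq_zsmul]
    have h4 := Fintype.linearIndependent_iff.mp e.linearIndependent (fun i => (n i : ZMod p)) h1 j
    exact (ZMod.intCast_zmod_eq_zero_iff_dvd _ _).mp h4

section
variable {O : Type*} [CommRing O] (p : ℕ)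

/-- **Level one.**  Lift an `𝔽_p`-basis of `𝒪 ⧸ p`: spanning and independence modulo `p`
with integer coefficients. -/
theorem exists_basis_mod_p [hp : Fact p.Prime] [Finite (O ⧸ Ideal.span {(p : O)})] :
    ∃ (r : ℕ) (b : Fin r → O),
      (∀ c : O, ∃ (n : Fin r → ℤ) (d : O), c = ∑ j, (n j : O) * b j + (p : O) * d) ∧
      (∀ (n : Fin r → ℤ) (d : O), ∑ j, (n j : O) * b j = (p : O) * d → ∀ j, (p : ℤ) ∣ n j) := by
  classical
  have hk : ∀ x : O ⧸ Ideal.span {(p : O)}, p • x = 0 := by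
    intro x
    obtain ⟨c, rfl⟩ := Ideal.Quotient.mk_surjective x
    rw [nsmul_eq_mul, ← map_natCast (Ideal.Quotient.mk (Ideal.span {(p : O)})), ← map_mul,
      Ideal.Quotient.eq_zero_iff_mem]
    exact Ideal.mem_span_singleton.mpr (Dvd.intro _ rfl)
  obtain ⟨r, e, hspan, hind⟩ :=
    @exists_int_basis_of_zmod_module p hp (O ⧸ Ideal.span {(p : O)}) _
      (AddCommGroup.zmodModule hk) _
  have hb : ∀ j, ∃ c : O, Ideal.Quotient.mk (Ideal.span {(p : O)}) c = e j :=
    fun j => Ideal.Quotient.mk_surjective (e j)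
  choose b hb using hb
  refine ⟨r, b, ?_, ?_⟩
  · intro c
    obtain ⟨n, hn⟩ := hspan (Ideal.Quotient.mk _ c)
    refine ⟨fun j => (n j : ℤ), ?_⟩
    have h1 : Ideal.Quotient.mk (Ideal.span {(p : O)}) c =
        Ideal.Quotient.mk (Ideal.span {(p : O)}) (∑ j, (((n j : ℤ)) : O) * b j) := by
      rw [hn, map_sum]
      refine Finset.sum_congr rfl fun j _ => ?_
      rw [map_mul, hb, Int.cast_natCast, map_natCast, nsmul_eq_mul]
    have h2 : c - ∑ j, (((n j : ℤ)) : O) * b j ∈ Ideal.span {(p : O)} := by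
      rw [← Ideal.Quotient.eq_zero_iff_mem, map_sub, ← h1, sub_self]
    obtain ⟨d, hd⟩ := Ideal.mem_span_singleton'.mp h2
    exact ⟨d, by linear_combination -hd⟩
  · intro n d h j
    refine hind n ?_ j
    have h2 := congrArg (Ideal.Quotient.mk (Ideal.span {(p : O)})) h
    rw [map_sum] at h2
    have h3 : Ideal.Quotient.mk (Ideal.span {(p : O)}) ((p : O) * d) = 0 := by
      rw [Ideal.Quotient.eq_zero_iff_mem]
      exact Ideal.mem_span_singleton.mpr (Dvd.intro _ rfl)
    rw [h3] at h2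
    rw [← h2]
    refine Finset.sum_congr rfl fun i _ => ?_
    rw [map_mul, hb, map_intCast, zsmul_eq_mul]

variable {p}

/-- Spanning modulo `p ^ m` from spanning modulo `p`. -/
theorem span_pow_of_span {r : ℕ} (b : Fin r → O)
    (h1 : ∀ c : O, ∃ (n : Fin r → ℤ) (d : O), c = ∑ j, (n j : O) * b j + (p : O) * d) (m : ℕ) :
    ∀ c : O, ∃ (n : Fin r → ℤ) (d : O), c = ∑ j, (n j : O) * b j + (p : O) ^ m * d := by
  induction m with
  | zero => intro c; exact ⟨0, c, by simp⟩
  | succ m ih =>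
    intro c
    obtain ⟨n, d, hc⟩ := ih c
    obtain ⟨n', d', hd⟩ := h1 d
    refine ⟨fun j => n j + (p : ℤ) ^ m * n' j, d', ?_⟩
    have key : ∑ j, ((n j + (p : ℤ) ^ m * n' j : ℤ) : O) * b j =
        ∑ j, (n j : O) * b j + (p : O) ^ m * ∑ j, (n' j : O) * b j := by
      rw [Finset.mul_sum, ← Finset.sum_add_distrib]
      refine Finset.sum_congr rfl fun j _ => ?_
      push_cast; ring
    rw [key]
    linear_combination hc + (p : O) ^ m * hd

/-- Independence modulo `p ^ m` from independence modulo `p`, for `p` a non-zero-divisor. -/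
theorem dvd_pow_of_dvd {r : ℕ} (hp0 : ∀ x : O, (p : O) * x = 0 → x = 0) (b : Fin r → O)
    (h1 : ∀ (n : Fin r → ℤ) (d : O), ∑ j, (n j : O) * b j = (p : O) * d → ∀ j, (p : ℤ) ∣ n j)
    (m : ℕ) :
    ∀ (n : Fin r → ℤ) (d : O), ∑ j, (n j : O) * b j = (p : O) ^ m * d →
      ∀ j, (p : ℤ) ^ m ∣ n j := by
  induction m with
  | zero => intro n d _ j; simp
  | succ m ih =>
    intro n d h j
    have h2 : ∀ i, (p : ℤ) ∣ n i := h1 n ((p : O) ^ m * d) (by rw [h]; ring)
    choose n' hn' using h2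
    have h3 : ∑ i, (n' i : O) * b i = (p : O) ^ m * d := by
      have key : ∑ i, (n i : O) * b i = (p : O) * ∑ i, (n' i : O) * b i := by
        rw [Finset.mul_sum]
        refine Finset.sum_congr rfl fun i _ => ?_
        rw [hn' i]; push_cast; ring
      have h4 : (p : O) * (∑ i, (n' i : O) * b i - (p : O) ^ m * d) = 0 := by
        linear_combination h - key
      exact sub_eq_zero.mp (hp0 _ h4)
    obtain ⟨t, ht⟩ := ih n' d h3 j
    exact ⟨t, by rw [hn' j, ht]; ring⟩

/-- **L1 (FREE), strong form.**  `𝒪 ⧸ p ^ m` is free over `ℤ ⧸ p ^ m`, dual-basis form, with the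
extra information that the coordinates kill `p ^ m 𝒪` and are dual to `b`. -/
theorem exists_dual_basis_mod_pow' [hp : Fact p.Prime] (hp0 : ∀ x : O, (p : O) * x = 0 → x = 0)
    [Finite (O ⧸ Ideal.span {(p : O)})] (m : ℕ) :
    ∃ (r : ℕ) (b : Fin r → O) (χ : Fin r → O →+ ZMod (p ^ m)),
      (∀ c : O, ∃ d : O, c = ∑ j, ((χ j c).val : O) * b j + (p : O) ^ m * d) ∧
      (∀ (j : Fin r) (d : O), χ j ((p : O) ^ m * d) = 0) ∧
      (∀ i j : Fin r, χ j (b i) = if i = j then 1 else 0) := by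
  classical
  have : NeZero (p ^ m) := ⟨pow_ne_zero _ hp.out.ne_zero⟩
  obtain ⟨r, b, hspan1, hind1⟩ := exists_basis_mod_p (O := O) p
  have hspan := span_pow_of_span b hspan1 m
  have hind := dvd_pow_of_dvd hp0 b hind1 m
  choose n d hnd using hspan
  -- coordinates are additive modulo `p ^ m`
  have hadd : ∀ (c c' : O) (j : Fin r),
      ((n (c + c') j : ℤ) : ZMod (p ^ m)) = (n c j : ZMod (p ^ m)) + (n c' j : ZMod (p ^ m)) := by
    intro c c' j
    have h1 : ∑ i, (((n (c + c') i - n c i - n c' i : ℤ)) : O) * b i =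
        (p : O) ^ m * (d c + d c' - d (c + c')) := by
      have key : ∑ i, (((n (c + c') i - n c i - n c' i : ℤ)) : O) * b i =
          ∑ i, (n (c + c') i : O) * b i - ∑ i, (n c i : O) * b i - ∑ i, (n c' i : O) * b i := by
        rw [← Finset.sum_sub_distrib, ← Finset.sum_sub_distrib]
        refine Finset.sum_congr rfl fun i _ => ?_
        push_cast; ring
      rw [key]
      linear_combination hnd c + hnd c' - hnd (c + c')
    have h2 : ((p ^ m : ℕ) : ℤ) ∣ n (c + c') j - n c j - n c' j := by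
      rw [Nat.cast_pow]; exact hind _ _ h1 j
    have h3 := (ZMod.intCast_zmod_eq_zero_iff_dvd _ _).mpr h2
    push_cast at h3
    linear_combination h3
  refine ⟨r, b, fun j => AddMonoidHom.mk' (fun c => ((n c j : ℤ) : ZMod (p ^ m)))
    (fun c c' => hadd c c' j), ?_, ?_, ?_⟩
  · intro c
    -- `((n c j : ZMod (p^m)).val : ℤ) ≡ n c j` modulo `p ^ m`
    have hval : ∀ j, ∃ t : ℤ,
        n c j = (((n c j : ℤ) : ZMod (p ^ m)).val : ℤ) + (p : ℤ) ^ m * t := by
      intro j
      have h1 : ((((n c j : ℤ) : ZMod (p ^ m)).val : ℤ) : ZMod (p ^ m)) =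
          ((n c j : ℤ) : ZMod (p ^ m)) := by
        rw [Int.cast_natCast, ZMod.natCast_zmod_val]
      obtain ⟨t, ht⟩ := (ZMod.intCast_eq_intCast_iff_dvd_sub _ _ _).mp h1
      refine ⟨t, ?_⟩
      rw [Nat.cast_pow] at ht
      linarith
    choose t ht using hval
    refine ⟨d c + ∑ j, (t j : O) * b j, ?_⟩
    simp only [AddMonoidHom.mk'_apply]
    have key : ∑ j, (n c j : O) * b j =
        ∑ j, ((((n c j : ℤ) : ZMod (p ^ m)).val : ℕ) : O) * b j +
          (p : O) ^ m * ∑ j, (t j : O) * b j := by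
      rw [Finset.mul_sum, ← Finset.sum_add_distrib]
      refine Finset.sum_congr rfl fun j _ => ?_
      conv_lhs => rw [ht j]
      push_cast; ring
    linear_combination hnd c + key
  · intro j d'
    simp only [AddMonoidHom.mk'_apply]
    have h1 : ∑ i, (n ((p : O) ^ m * d') i : O) * b i =
        (p : O) ^ m * (d' - d ((p : O) ^ m * d')) := by
      linear_combination -hnd ((p : O) ^ m * d')
    have h2 : ((p ^ m : ℕ) : ℤ) ∣ n ((p : O) ^ m * d') j := by
      rw [Nat.cast_pow]; exact hind _ _ h1 j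
    exact (ZMod.intCast_zmod_eq_zero_iff_dvd _ _).mpr h2
  · intro i j
    simp only [AddMonoidHom.mk'_apply]
    have h1 : ∑ l, ((n (b i) l - (if i = l then 1 else 0) : ℤ) : O) * b l =
        (p : O) ^ m * (- d (b i)) := by
      have key : ∑ l, ((n (b i) l - (if i = l then 1 else 0) : ℤ) : O) * b l =
          ∑ l, (n (b i) l : O) * b l - b i := by
        have : ∑ l, ((if i = l then 1 else 0 : ℤ) : O) * b l = b i := by
          simp [Finset.sum_ite_eq]
        rw [← this, ← Finset.sum_sub_distrib]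
        refine Finset.sum_congr rfl fun l _ => ?_
        push_cast; ring
      rw [key]
      linear_combination -hnd (b i)
    have h2 : ((p ^ m : ℕ) : ℤ) ∣ n (b i) j - (if i = j then 1 else 0) := by
      rw [Nat.cast_pow]; exact hind _ _ h1 j
    have h3 := (ZMod.intCast_zmod_eq_zero_iff_dvd _ _).mpr h2
    rw [Int.cast_sub, sub_eq_zero] at h3
    rw [h3]
    split_ifs <;> simp

/-- **L1 (FREE).**  `𝒪 ⧸ p ^ m` is free over `ℤ ⧸ p ^ m`, dual-basis form (board literal). -/
theorem exists_dual_basis_mod_pow [hp : Fact p.Prime] (hp0 : ∀ x : O, (p : O) * x = 0 → x = 0)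
    [Finite (O ⧸ Ideal.span {(p : O)})] (m : ℕ) :
    ∃ (r : ℕ) (b : Fin r → O) (χ : Fin r → O →+ ZMod (p ^ m)),
      ∀ c : O, ∃ d : O, c = ∑ j, ((χ j c).val : O) * b j + (p : O) ^ m * d := by
  obtain ⟨r, b, χ, h, -, -⟩ := exists_dual_basis_mod_pow' (p := p) hp0 m
  exact ⟨r, b, χ, h⟩

/-- `𝒪 ⧸ p ^ m` is finite. -/
theorem finite_quotient_span_pow [hp : Fact p.Prime] (hp0 : ∀ x : O, (p : O) * x = 0 → x = 0)
    [Finite (O ⧸ Ideal.span {(p : O)})] (m : ℕ) :
    Finite (O ⧸ Ideal.span {(p : O) ^ m}) := by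
  have : NeZero (p ^ m) := ⟨pow_ne_zero _ hp.out.ne_zero⟩
  obtain ⟨r, b, χ, h⟩ := exists_dual_basis_mod_pow (p := p) hp0 m
  refine Finite.of_surjective
    (fun z : Fin r → ZMod (p ^ m) =>
      Ideal.Quotient.mk (Ideal.span {(p : O) ^ m}) (∑ j, ((z j).val : O) * b j)) ?_
  intro x
  obtain ⟨c, rfl⟩ := Ideal.Quotient.mk_surjective x
  obtain ⟨d, hd⟩ := h c
  refine ⟨fun j => χ j c, ?_⟩
  rw [eq_comm, ← sub_eq_zero, ← map_sub, Ideal.Quotient.eq_zero_iff_mem]
  exact Ideal.mem_span_singleton.mpr ⟨d, by linear_combination hd⟩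

end

end Fermat.Agent.FF2.S32L
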